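/-
Programme T1B, brick (X2) DEGEN-HECKE, part 1 (helper20): GENERAL-`y` PRODUCT FORMULAS for the norms
along the two degeneracy maps `α_p, β_p : F̄_M → F̄_{M p}` (`p` prime, `p ∤ M`), through the
Atkin–Lehner expansion `W_p` (`ALP90/AL1`):

* `qExpand_normAlong_beta_general`  : `(N_{β_p} y)(q^p) = ∏_{b<p} y(ζ^b q) · (W_p y)(q^p)`;
* `qExpand_normAlong_alpha_general` : `(N_{α_p} y)(q^p) = ∏_{b<p} (W_p y)(ζ^b q) · y(q^p)`;

for every `y : FF (M * p)` (the library's `ConjNorm11` has them for `y = α f`, `y = β f` only), and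

* `twistU_qExpand_comm`, `prod_twistU_qExpand` : twists and `q ↦ q^l` (`l` prime to `p`) commute on
  the product over all `p`-th roots of unity;
* `castLevel (h : A = B) : FF A ≃ₐ[Kbar] FF B`, the `q`-expansion preserving level cast.
-/
import Mathlib
import Fermat.Agent.ES.KRON.ConjNorm11
import Fermat.Agent.T1B.ALP90.AL1

set_option autoImplicit false
set_option linter.unusedSectionVars false

noncomputable section

namespace Fermat.Agent.T1B.Degen20.ProdGen

open ModularCurve IntermediateField AlgebraicCurve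
open Fermat.Agent.X0
open Fermat.Agent.ES.KRON.KronCong24 Fermat.Agent.ES.KRON.Conjugates11
open Fermat.Agent.ES.KRON.ConjNorm11
open Fermat.Agent.ES.HECKE.PointFormula28
open Fermat.Agent.T1B.ALP90.AL1

/-! ### The level cast -/

section Cast

/-- The `q`-expansion preserving identification `F̄_A = F̄_B` for `A = B`. -/
def castLevel {A B : ℕ} (h : A = B) : FF A ≃ₐ[Kbar] FF B :=
  IntermediateField.equivOfEq (congrArg modularFunctionFieldBar h)

@[simp] theorem coe_castLevel {A B : ℕ} (h : A = B) (x : FF A) :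
    ((castLevel h x : FF B) : LaurentSeries Kbar) = (x : LaurentSeries Kbar) := by
  subst h
  rfl

theorem castLevel_symm {A B : ℕ} (h : A = B) : (castLevel h).symm = castLevel h.symm := by
  subst h
  rfl

/-- Any map `c : FF A → FF B` preserving `q`-expansions is the level cast. -/
theorem eq_castLevel {A B : ℕ} (h : A = B) (c : FF A → FF B)
    (hc : ∀ x, ((c x : FF B) : LaurentSeries Kbar) = (x : LaurentSeries Kbar)) (x : FF A) :
    c x = castLevel h x :=
  Subtype.ext ((hc x).trans (coe_castLevel h x).symm)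

end Cast

/-! ### Twists and `q ↦ q^m` -/

section Twist

variable {R : Type*} [CommRing R]

/-- `y(q^m)` twisted by `u` is `(y twisted by u^m)(q^m)`. -/
theorem twistU_qExpand_comm (m : ℕ) [NeZero m] (u : Rˣ) (x : LaurentSeries R) :
    twistU u (qExpand R m x) = qExpand R m (twistU (u ^ m) x) := by
  ext n
  rw [twistU_coeff]
  by_cases hn : (m : ℤ) ∣ n
  · obtain ⟨c, rfl⟩ := hn
    rw [qExpand_coeff_mul, qExpand_coeff_mul, twistU_coeff, zpow_mul, zpow_natCast]
  · rw [qExpand_coeff_of_not_dvd m x hn, qExpand_coeff_of_not_dvd m _ hn, mul_zero]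

/-- `b ↦ (b * l) % p` permutes `range p` when `l` is prime to `p`. -/
theorem image_mul_mod_range (p l : ℕ) (hp : 0 < p) (hcop : Nat.Coprime l p) :
    (Finset.range p).image (fun b => (b * l) % p) = Finset.range p := by
  apply Finset.eq_of_subset_of_card_le
  · intro x hx
    obtain ⟨b, -, rfl⟩ := Finset.mem_image.mp hx
    exact Finset.mem_range.mpr (Nat.mod_lt _ hp)
  · rw [Finset.card_image_of_injOn]
    intro a ha b hb hab
    have ha' : a < p := Finset.mem_range.mp ha
    have hb' : b < p := Finset.mem_range.mp hb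
    have h1 : a * l ≡ b * l [MOD p] := hab
    have h2 : a ≡ b [MOD p] := Nat.ModEq.cancel_right_of_coprime hcop.symm h1
    have h3 : a % p = b % p := h2
    rwa [Nat.mod_eq_of_lt ha', Nat.mod_eq_of_lt hb'] at h3

/-- Reindexing a product over the powers of a `p`-th root of unity by `b ↦ b l`. -/
theorem prod_pow_mul_reindex {G : Type*} [Group G] {M : Type*} [CommMonoid M] (p l : ℕ)
    (hp : 0 < p) (hcop : Nat.Coprime l p) (ζ : G) (hζ : ζ ^ p = 1) (g : G → M) :
    ∏ b ∈ Finset.range p, g ((ζ ^ b) ^ l) = ∏ b ∈ Finset.range p, g (ζ ^ b) := by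
  have hmod : ∀ n : ℕ, ζ ^ (n % p) = ζ ^ n := by
    intro n
    conv_rhs => rw [← Nat.mod_add_div n p]
    rw [pow_add, pow_mul, hζ, one_pow, mul_one]
  have h1 : ∀ b, g ((ζ ^ b) ^ l) = g (ζ ^ ((b * l) % p)) := by
    intro b
    rw [hmod, pow_mul]
  simp only [h1]
  have hinj : Set.InjOn (fun b => (b * l) % p) (Finset.range p : Set ℕ) := by
    intro a ha b hb hab
    have ha' : a < p := Finset.mem_range.mp ha
    have hb' : b < p := Finset.mem_range.mp hb
    have h1 : a * l ≡ b * l [MOD p] := hab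
    have h2 : a ≡ b [MOD p] := Nat.ModEq.cancel_right_of_coprime hcop.symm h1
    have h3 : a % p = b % p := h2
    rwa [Nat.mod_eq_of_lt ha', Nat.mod_eq_of_lt hb'] at h3
  rw [← Finset.prod_image (f := fun c => g (ζ ^ c)) hinj, image_mul_mod_range p l hp hcop]

/-- The product over all `p`-th roots of unity of the twists commutes with `q ↦ q^l`,
`l` prime to `p`. -/
theorem prod_twistU_qExpand (p l : ℕ) [NeZero l] (hp : 0 < p) (hcop : Nat.Coprime l p) (ζ : Rˣ)
    (hζ : ζ ^ p = 1) (s : LaurentSeries R) :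
    ∏ b ∈ Finset.range p, twistU (ζ ^ b) (qExpand R l s) =
      qExpand R l (∏ b ∈ Finset.range p, twistU (ζ ^ b) s) := by
  rw [map_prod]
  simp only [twistU_qExpand_comm]
  exact prod_pow_mul_reindex p l hp hcop ζ hζ (fun u => qExpand R l (twistU u s))

end Twist

/-! ### The general-`y` product formulas -/

section Prod

variable (M p : ℕ) [NeZero M] [NeZero p]

/-- **`(N_{β_p} y)(q^p) = ∏_{b<p} y(ζ^b q) · (W_p y)(q^p)`** for every `y : FF (M * p)`. -/
theorem qExpand_normAlong_beta_general (hp : p.Prime) (hpM : ¬ p ∣ M) (ζ : Kbarˣ)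
    (hζ : IsPrimitiveRoot ζ p) (y : FF (M * p)) :
    qExpand Kbar p ((normAlong (heckeBetaBar Kbar M p) y : FF M) : LaurentSeries Kbar) =
      (∏ b ∈ Finset.range p, twistU (ζ ^ b) (y : LaurentSeries Kbar)) *
        qExpand Kbar p (Wp M p hp hpM y) := by
  have hfin : FiniteAlong Kbar (heckeBetaBar Kbar M p) :=
    Fermat.Agent.ES.HECKE.AlongDegree25.finiteAlong_beta Kbar M p hp hpM
  have hn : finrankAlong Kbar (heckeBetaBar Kbar M p) = p + 1 :=
    Fermat.Agent.ES.HECKE.AlongDegree25.finrankAlong_beta Kbar M p hp hpM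
  have hζp : ζ ^ p = 1 := hζ.pow_eq_one
  set σ' : FF (M * p) →+* LaurentSeries Kbar := (qExpand Kbar p).comp (Wp M p hp hpM) with hσ'
  have h1 : ∀ (b : ℕ) (a : FF M), embTwist M p ζ b (heckeBetaBar Kbar M p a) = iotaL p M a := by
    intro b a
    rw [embTwist_beta M p ζ hζp, iotaL_apply]
  have h1' : ∀ a : FF M, σ' (heckeBetaBar Kbar M p a) = iotaL p M a := by
    intro a
    rw [hσ', RingHom.comp_apply, Wp_beta, iotaL_apply]
  have h2' : ∀ f : FF M, σ' (heckeAlphaBar Kbar M p f) =
      qExpand Kbar (p ^ 2) (f : LaurentSeries Kbar) := by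
    intro f
    rw [hσ', RingHom.comp_apply, Wp_alpha, qExpand_qExpand]
    exact qExpand_congr (sq p).symm _
  obtain ⟨hinj, hσ⟩ := embFamily_spec (τ := fun b => embTwist M p ζ b) (τ' := σ')
    (heckeBetaBar Kbar M p) (heckeAlphaBar Kbar M p) hn hp ζ hζ (iotaL p M) h1 h1'
    (fun b g => embTwist_alpha M p ζ b g) h2'
  rw [← iotaL_apply, normAlong_map_eq_prod (heckeBetaBar Kbar M p) hfin hn (iotaL p M)
    (embFamily M p (fun b => embTwist M p ζ b) σ') hσ hinj y, Fin.prod_univ_castSucc]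
  congr 1
  · rw [← Fin.prod_univ_eq_prod_range (fun b => twistU (ζ ^ b) (y : LaurentSeries Kbar)) p]
    refine Finset.prod_congr rfl fun i _ => ?_
    rw [embFamily_castSucc, embTwist_apply]
  · rw [embFamily_last]
    rfl

/-- **`(N_{α_p} y)(q^p) = ∏_{b<p} (W_p y)(ζ^b q) · y(q^p)`** for every `y : FF (M * p)`. -/
theorem qExpand_normAlong_alpha_general (hp : p.Prime) (hpM : ¬ p ∣ M) (ζ : Kbarˣ)
    (hζ : IsPrimitiveRoot ζ p) (y : FF (M * p)) :
    qExpand Kbar p ((normAlong (heckeAlphaBar Kbar M p) y : FF M) : LaurentSeries Kbar) =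
      (∏ b ∈ Finset.range p, twistU (ζ ^ b) (Wp M p hp hpM y)) *
        qExpand Kbar p (y : LaurentSeries Kbar) := by
  have hfin : FiniteAlong Kbar (heckeAlphaBar Kbar M p) :=
    Fermat.Agent.ES.HECKE.AlongDegree25.finiteAlong_alpha Kbar M p hp hpM
  have hn : finrankAlong Kbar (heckeAlphaBar Kbar M p) = p + 1 :=
    Fermat.Agent.ES.HECKE.AlongDegree25.finrankAlong_alpha Kbar M p hp hpM
  obtain ⟨h1, h1', h2, h2'⟩ := embs_alpha_beta M p ζ hζ.pow_eq_one (Wp M p hp hpM)
    (Wp_beta M p hp hpM) (Wp_alpha M p hp hpM)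
  obtain ⟨hinj, hσ⟩ := embFamily_spec (τ := fun b => (twistU (ζ ^ b)).comp (Wp M p hp hpM))
    (τ' := iotaL p (M * p))
    (heckeAlphaBar Kbar M p) (heckeBetaBar Kbar M p) hn hp ζ hζ (iotaL p M) h1 h1' h2 h2'
  rw [← iotaL_apply, normAlong_map_eq_prod (heckeAlphaBar Kbar M p) hfin hn (iotaL p M)
    (embFamily M p (fun b => (twistU (ζ ^ b)).comp (Wp M p hp hpM)) (iotaL p (M * p))) hσ hinj y,
    Fin.prod_univ_castSucc]
  congr 1
  · rw [← Fin.prod_univ_eq_prod_range (fun b => twistU (ζ ^ b) (Wp M p hp hpM y)) p]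
    refine Finset.prod_congr rfl fun i _ => ?_
    rw [embFamily_castSucc]
    rfl
  · rw [embFamily_last]
    rfl

end Prod

end Fermat.Agent.T1B.Degen20.ProdGen
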