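/-
Programme T1B, brick (X2) DEGEN-HECKE, part 2 (helper20): NORM BASE CHANGE in the squares

      FF N  --ψ_l-->  FF (N*l)
        |δ_p              |δ_p
      FF (N*p) --ψ_l--> FF (N*p*l) ≅ FF (N*l*p)

for `δ ∈ {α_p, β_p}` (the two degeneracy maps, `p` prime, `p ∤ N l`) and `ψ ∈ {α_l, β_l}`
(`l` a prime `≠ p`; `l ∣ N` allowed):

  `N_{δ_p at level N l} (cast (ψ_l f)) = ψ_l (N_{δ_p at level N} f)`,   `f : FF (N*p)`.

These are exactly the hypotheses `hnorm` of `ES/HECKE/BaseChange19.pullbackAlong_pushforwardAlong`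
(`a := δ_p` at level `N`, `p := ψ_l` at level `N`, `a' := δ_p` at level `N*l`,
`p' := cast ∘ ψ_l` at level `N*p`), i.e. the input of "the push-forwards `π_1 = (α_p)_*`,
`π_2 = (β_p)_*` commute with `T_l` (`l ∤ N p`) and with `U_l = (β_l)_* (α_l)^*` (`l ∣ N`)".

Proof: both sides have the same `q`-expansion, by the general-`y` product formulas of `ProdGen`
and the commutation (AL2) of the Atkin–Lehner expansion `W_p` with `α_l`, `β_l` (`ALP27/Commute`).
The cast is helper27's `ALP27.levelCast (ALP27.level_comm N p l)`; `normBC_*_cast` are the same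
statements for any `q`-expansion preserving map `c`.
-/
import Mathlib
import Fermat.Agent.T1B.Degen20.ProdGen
import Fermat.Agent.T1B.ALP27.Commute
import Fermat.Agent.ES.HECKE.BaseChange19

set_option autoImplicit false
set_option linter.unusedSectionVars false

noncomputable section

namespace Fermat.Agent.T1B.Degen20.NormBC

open ModularCurve IntermediateField AlgebraicCurve
open Fermat.Agent.X0
open Fermat.Agent.ES.KRON.KronCong24
open Fermat.Agent.T1B.ALP90.AL1
open Fermat.Agent.T1B.ALP27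
open Fermat.Agent.T1B.Degen20.ProdGen

variable (N p l : ℕ) [NeZero N] [NeZero p] [NeZero l]

/-- `p ∤ N l → p ∤ N`. -/
theorem not_dvd_left {N p l : ℕ} (hpNl : ¬ p ∣ N * l) : ¬ p ∣ N := fun h =>
  hpNl (h.trans (dvd_mul_right N l))

/-- `p` prime, `p ∤ N l → l` is prime to `p`. -/
theorem coprime_of_not_dvd {N p l : ℕ} (hp : p.Prime) (hpNl : ¬ p ∣ N * l) : Nat.Coprime l p :=
  ((Nat.Prime.coprime_iff_not_dvd hp).mpr fun h => hpNl (h.trans (dvd_mul_left l N))).symm

/-- A primitive `p`-th root of unity in `ℚbar`, as a unit. -/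
theorem exists_primitiveRoot_unit (p : ℕ) [NeZero p] : ∃ ζ : Kbarˣ, IsPrimitiveRoot ζ p := by
  obtain ⟨ζ₀, hζ₀⟩ := HasEnoughRootsOfUnity.exists_primitiveRoot Kbar p
  have hu : IsUnit ζ₀ := hζ₀.isUnit (NeZero.ne p)
  refine ⟨hu.unit, ?_⟩
  rw [← IsPrimitiveRoot.coe_units_iff, IsUnit.unit_spec]
  exact hζ₀

/-- `q ↦ q^a` and `q ↦ q^b` commute. -/
theorem qExpand_comm {R : Type*} [CommRing R] (a b : ℕ) [NeZero a] [NeZero b]
    (x : LaurentSeries R) : qExpand R a (qExpand R b x) = qExpand R b (qExpand R a x) := by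
  rw [qExpand_qExpand, qExpand_qExpand]
  exact qExpand_congr (mul_comm a b) x

/-! ### The norm along `β_p` -/

/-- **Norm base change, `δ = β_p`, `ψ = α_l`.** -/
theorem normBC_beta_alpha (hp : p.Prime) (hpNl : ¬ p ∣ N * l) (f : FF (N * p)) :
    Fermat.Agent.ES.HECKE.BaseChange19.normAlong (heckeBetaBar Kbar (N * l) p)
        (levelCast (level_comm N p l) (heckeAlphaBar Kbar (N * p) l f)) =
      heckeAlphaBar Kbar N l
        (Fermat.Agent.ES.HECKE.BaseChange19.normAlong (heckeBetaBar Kbar N p) f) := by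
  have hpN : ¬ p ∣ N := not_dvd_left hpNl
  obtain ⟨ζ, hζ⟩ := exists_primitiveRoot_unit p
  apply Subtype.ext
  apply qExpand_injective (R := Kbar) (N := p)
  have h1 := qExpand_normAlong_beta_general (N * l) p hp hpNl ζ hζ
    (levelCast (level_comm N p l) (heckeAlphaBar Kbar (N * p) l f))
  have h2 := qExpand_normAlong_beta_general N p hp hpN ζ hζ f
  rw [coe_heckeAlphaBar]
  refine h1.trans ?_
  rw [coe_levelCast, coe_heckeAlphaBar,
    commute_alpha hp (Wp_beta N p hp hpN) (Wp_alpha N p hp hpN) (Wp_beta (N * l) p hp hpNl)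
      (Wp_alpha (N * l) p hp hpNl) f]
  exact h2.symm

/-- **Norm base change, `δ = β_p`, `ψ = β_l`.** -/
theorem normBC_beta_beta (hp : p.Prime) (hpNl : ¬ p ∣ N * l) (f : FF (N * p)) :
    Fermat.Agent.ES.HECKE.BaseChange19.normAlong (heckeBetaBar Kbar (N * l) p)
        (levelCast (level_comm N p l) (heckeBetaBar Kbar (N * p) l f)) =
      heckeBetaBar Kbar N l
        (Fermat.Agent.ES.HECKE.BaseChange19.normAlong (heckeBetaBar Kbar N p) f) := by
  have hpN : ¬ p ∣ N := not_dvd_left hpNl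
  have hcop : Nat.Coprime l p := coprime_of_not_dvd hp hpNl
  obtain ⟨ζ, hζ⟩ := exists_primitiveRoot_unit p
  apply Subtype.ext
  apply qExpand_injective (R := Kbar) (N := p)
  have h1 := qExpand_normAlong_beta_general (N * l) p hp hpNl ζ hζ
    (levelCast (level_comm N p l) (heckeBetaBar Kbar (N * p) l f))
  have h2 := qExpand_normAlong_beta_general N p hp hpN ζ hζ f
  rw [coe_heckeBetaBar]
  refine h1.trans ?_
  rw [coe_levelCast, coe_heckeBetaBar,
    commute_beta hp (Wp_beta N p hp hpN) (Wp_alpha N p hp hpN) (Wp_beta (N * l) p hp hpNl)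
      (Wp_alpha (N * l) p hp hpNl) f,
    prod_twistU_qExpand p l hp.pos hcop ζ hζ.pow_eq_one,
    qExpand_comm p l (Wp N p hp hpN f), qExpand_comm p l, ← map_mul]
  exact congrArg _ h2.symm

/-! ### The norm along `α_p` -/

/-- **Norm base change, `δ = α_p`, `ψ = α_l`.** -/
theorem normBC_alpha_alpha (hp : p.Prime) (hpNl : ¬ p ∣ N * l) (f : FF (N * p)) :
    Fermat.Agent.ES.HECKE.BaseChange19.normAlong (heckeAlphaBar Kbar (N * l) p)
        (levelCast (level_comm N p l) (heckeAlphaBar Kbar (N * p) l f)) =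
      heckeAlphaBar Kbar N l
        (Fermat.Agent.ES.HECKE.BaseChange19.normAlong (heckeAlphaBar Kbar N p) f) := by
  have hpN : ¬ p ∣ N := not_dvd_left hpNl
  obtain ⟨ζ, hζ⟩ := exists_primitiveRoot_unit p
  apply Subtype.ext
  apply qExpand_injective (R := Kbar) (N := p)
  have h1 := qExpand_normAlong_alpha_general (N * l) p hp hpNl ζ hζ
    (levelCast (level_comm N p l) (heckeAlphaBar Kbar (N * p) l f))
  have h2 := qExpand_normAlong_alpha_general N p hp hpN ζ hζ f
  rw [coe_heckeAlphaBar]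
  refine h1.trans ?_
  rw [coe_levelCast, coe_heckeAlphaBar,
    commute_alpha hp (Wp_beta N p hp hpN) (Wp_alpha N p hp hpN) (Wp_beta (N * l) p hp hpNl)
      (Wp_alpha (N * l) p hp hpNl) f]
  exact h2.symm

/-- **Norm base change, `δ = α_p`, `ψ = β_l`.** -/
theorem normBC_alpha_beta (hp : p.Prime) (hpNl : ¬ p ∣ N * l) (f : FF (N * p)) :
    Fermat.Agent.ES.HECKE.BaseChange19.normAlong (heckeAlphaBar Kbar (N * l) p)
        (levelCast (level_comm N p l) (heckeBetaBar Kbar (N * p) l f)) =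
      heckeBetaBar Kbar N l
        (Fermat.Agent.ES.HECKE.BaseChange19.normAlong (heckeAlphaBar Kbar N p) f) := by
  have hpN : ¬ p ∣ N := not_dvd_left hpNl
  have hcop : Nat.Coprime l p := coprime_of_not_dvd hp hpNl
  obtain ⟨ζ, hζ⟩ := exists_primitiveRoot_unit p
  apply Subtype.ext
  apply qExpand_injective (R := Kbar) (N := p)
  have h1 := qExpand_normAlong_alpha_general (N * l) p hp hpNl ζ hζ
    (levelCast (level_comm N p l) (heckeBetaBar Kbar (N * p) l f))
  have h2 := qExpand_normAlong_alpha_general N p hp hpN ζ hζ f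
  rw [coe_heckeBetaBar]
  refine h1.trans ?_
  rw [coe_levelCast, coe_heckeBetaBar,
    commute_beta hp (Wp_beta N p hp hpN) (Wp_alpha N p hp hpN) (Wp_beta (N * l) p hp hpNl)
      (Wp_alpha (N * l) p hp hpNl) f,
    prod_twistU_qExpand p l hp.pos hcop ζ hζ.pow_eq_one,
    qExpand_comm p l (f : LaurentSeries Kbar), qExpand_comm p l, ← map_mul]
  exact congrArg _ h2.symm

/-! ### The squares, in the `AlgHom` shape of `BaseChange19.pullbackAlong_pushforwardAlong` -/

/-- `cast ∘ α_l : FF (N*p) → FF (N*l*p)` (the inclusion). -/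
def upAlpha : FF (N * p) →ₐ[Kbar] FF (N * l * p) :=
  ((levelCast (level_comm N p l) : FF (N * p * l) ≃ₐ[Kbar] FF (N * l * p)) :
    FF (N * p * l) →ₐ[Kbar] FF (N * l * p)).comp (heckeAlphaBar Kbar (N * p) l)

/-- `cast ∘ β_l : FF (N*p) → FF (N*l*p)` (`q ↦ q^l`). -/
def upBeta : FF (N * p) →ₐ[Kbar] FF (N * l * p) :=
  ((levelCast (level_comm N p l) : FF (N * p * l) ≃ₐ[Kbar] FF (N * l * p)) :
    FF (N * p * l) →ₐ[Kbar] FF (N * l * p)).comp (heckeBetaBar Kbar (N * p) l)

theorem upAlpha_apply (f : FF (N * p)) :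
    upAlpha N p l f = levelCast (level_comm N p l) (heckeAlphaBar Kbar (N * p) l f) := rfl

theorem upBeta_apply (f : FF (N * p)) :
    upBeta N p l f = levelCast (level_comm N p l) (heckeBetaBar Kbar (N * p) l f) := rfl

@[simp] theorem coe_upAlpha (f : FF (N * p)) :
    ((upAlpha N p l f : FF (N * l * p)) : LaurentSeries Kbar) = (f : LaurentSeries Kbar) := by
  rw [upAlpha_apply, coe_levelCast, coe_heckeAlphaBar]

@[simp] theorem coe_upBeta (f : FF (N * p)) :
    ((upBeta N p l f : FF (N * l * p)) : LaurentSeries Kbar) =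
      qExpand Kbar l (f : LaurentSeries Kbar) := by
  rw [upBeta_apply, coe_levelCast, coe_heckeBetaBar]

/-- Any `q`-expansion preserving map `FF (N*p*l) → FF (N*l*p)` is the level cast. -/
theorem eq_levelCast {A B : ℕ} (h : A = B) (c : FF A → FF B)
    (hc : ∀ x, ((c x : FF B) : LaurentSeries Kbar) = (x : LaurentSeries Kbar)) (x : FF A) :
    c x = levelCast h x :=
  Subtype.ext ((hc x).trans (coe_levelCast h x).symm)

/-- The square `α_p ∘ α_l = upAlpha ∘ α_p`. -/
theorem sq_alpha_alpha :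
    (heckeAlphaBar Kbar (N * l) p).comp (heckeAlphaBar Kbar N l) =
      (upAlpha N p l).comp (heckeAlphaBar Kbar N p) := by
  ext f
  rw [AlgHom.comp_apply, AlgHom.comp_apply, coe_heckeAlphaBar, coe_heckeAlphaBar, coe_upAlpha,
    coe_heckeAlphaBar]

/-- The square `α_p ∘ β_l = upBeta ∘ α_p`. -/
theorem sq_alpha_beta :
    (heckeAlphaBar Kbar (N * l) p).comp (heckeBetaBar Kbar N l) =
      (upBeta N p l).comp (heckeAlphaBar Kbar N p) := by
  ext f
  rw [AlgHom.comp_apply, AlgHom.comp_apply, coe_heckeAlphaBar, coe_heckeBetaBar, coe_upBeta,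
    coe_heckeAlphaBar]

/-- The square `β_p ∘ α_l = upAlpha ∘ β_p`. -/
theorem sq_beta_alpha :
    (heckeBetaBar Kbar (N * l) p).comp (heckeAlphaBar Kbar N l) =
      (upAlpha N p l).comp (heckeBetaBar Kbar N p) := by
  ext f
  rw [AlgHom.comp_apply, AlgHom.comp_apply, coe_heckeBetaBar, coe_heckeAlphaBar, coe_upAlpha,
    coe_heckeBetaBar]

/-- The square `β_p ∘ β_l = upBeta ∘ β_p`. -/
theorem sq_beta_beta :
    (heckeBetaBar Kbar (N * l) p).comp (heckeBetaBar Kbar N l) =
      (upBeta N p l).comp (heckeBetaBar Kbar N p) := by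
  ext f
  rw [AlgHom.comp_apply, AlgHom.comp_apply, coe_heckeBetaBar, coe_heckeBetaBar, coe_upBeta,
    coe_heckeBetaBar, qExpand_comm]

/-- `hnorm` for the square `sq_alpha_alpha`. -/
theorem hnorm_alpha_alpha (hp : p.Prime) (hpNl : ¬ p ∣ N * l) (f : FF (N * p)) :
    Fermat.Agent.ES.HECKE.BaseChange19.normAlong (heckeAlphaBar Kbar (N * l) p)
        (upAlpha N p l f) =
      heckeAlphaBar Kbar N l
        (Fermat.Agent.ES.HECKE.BaseChange19.normAlong (heckeAlphaBar Kbar N p) f) :=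
  normBC_alpha_alpha N p l hp hpNl f

/-- `hnorm` for the square `sq_alpha_beta`. -/
theorem hnorm_alpha_beta (hp : p.Prime) (hpNl : ¬ p ∣ N * l) (f : FF (N * p)) :
    Fermat.Agent.ES.HECKE.BaseChange19.normAlong (heckeAlphaBar Kbar (N * l) p)
        (upBeta N p l f) =
      heckeBetaBar Kbar N l
        (Fermat.Agent.ES.HECKE.BaseChange19.normAlong (heckeAlphaBar Kbar N p) f) :=
  normBC_alpha_beta N p l hp hpNl f

/-- `hnorm` for the square `sq_beta_alpha`. -/
theorem hnorm_beta_alpha (hp : p.Prime) (hpNl : ¬ p ∣ N * l) (f : FF (N * p)) :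
    Fermat.Agent.ES.HECKE.BaseChange19.normAlong (heckeBetaBar Kbar (N * l) p)
        (upAlpha N p l f) =
      heckeAlphaBar Kbar N l
        (Fermat.Agent.ES.HECKE.BaseChange19.normAlong (heckeBetaBar Kbar N p) f) :=
  normBC_beta_alpha N p l hp hpNl f

/-- `hnorm` for the square `sq_beta_beta`. -/
theorem hnorm_beta_beta (hp : p.Prime) (hpNl : ¬ p ∣ N * l) (f : FF (N * p)) :
    Fermat.Agent.ES.HECKE.BaseChange19.normAlong (heckeBetaBar Kbar (N * l) p)
        (upBeta N p l f) =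
      heckeBetaBar Kbar N l
        (Fermat.Agent.ES.HECKE.BaseChange19.normAlong (heckeBetaBar Kbar N p) f) :=
  normBC_beta_beta N p l hp hpNl f

end Fermat.Agent.T1B.Degen20.NormBC
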