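/-
Programme T1B, brick (X2) DEGEN-HECKE, part 3 (helper20): THE GLUE.

helper21's `Degen21` (Pic level: `piOne/piTwo = (α_p)_*, (β_p)_* : J₀(N p) → J₀(N)`, commutation with
`T_l` and `U_l` from the norm compatibilities `Level.NormBC N p l`, preservation of the occurrence
subgroups, total families `degenOne/degenTwo`) is conditional on `Occ.NormBCRange`; the four norm
identities of `Degen20/NormBC.lean` discharge it through `Degen21.Bridge.normBC_of_cast`.

* `normBC N p l hp hpNl : Degen21.Level.NormBC N p l`;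
* `normBCRange : Degen21.Occ.NormBCRange`;
* `degeneracyOK_degenOne`, `degeneracyOK_degenTwo` : **UNCONDITIONAL** `Local66.Assembly.DegeneracyOK`
  for the two total families of degeneracy push-forwards, with `U := Degen21.UFam.uTwo`
  (`U_2 = (β_2)_* (α_2)^*`).
-/
import Mathlib
import Fermat.Agent.T1B.Degen20.NormBC
import Fermat.Agent.T1B.Degen21.Bridge
import Fermat.Agent.T1B.Degen21.Occ
import Fermat.Agent.T1B.Local66.Assembly

set_option autoImplicit false
set_option linter.unusedSectionVars false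

noncomputable section

namespace Fermat.Agent.T1B.Degen20.Final

open ModularCurve AlgebraicCurve
open Fermat.Agent.X0
open Fermat.Agent.T1B.ALP27
open Fermat.Agent.T1B.Degen20.NormBC
open Fermat.Agent.T1B.Top68

/-- **The four norm compatibilities at `(N, p, l)`**, `p` prime, `p ∤ N l`. -/
theorem normBC (N p l : ℕ) [NeZero N] [NeZero p] [NeZero l] (hp : p.Prime) (hpNl : ¬ p ∣ N * l) :
    Fermat.Agent.T1B.Degen21.Level.NormBC N p l :=
  Fermat.Agent.T1B.Degen21.Bridge.normBC_of_cast N p l (levelCast (level_comm N p l))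
    (fun x => coe_levelCast (level_comm N p l) x)
    (normBC_alpha_alpha N p l hp hpNl) (normBC_alpha_beta N p l hp hpNl)
    (normBC_beta_alpha N p l hp hpNl) (normBC_beta_beta N p l hp hpNl)

/-- `p` prime, `p ∤ M'`, `l` a prime `≠ p` `⟹ p ∤ M' l`. -/
theorem not_dvd_mul_prime {M' p l : ℕ} (hp : p.Prime) (hpM : ¬ p ∣ M') (hl : l.Prime)
    (hlp : l ≠ p) : ¬ p ∣ M' * l := by
  intro h
  rcases (Nat.Prime.dvd_mul hp).mp h with h' | h'
  · exact hpM h'
  · exact hlp ((Nat.prime_dvd_prime_iff_eq hp hl).mp h').symm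

/-- **The norm compatibilities in the whole range.** -/
theorem normBCRange : Fermat.Agent.T1B.Degen21.Occ.NormBCRange := by
  intro M' p _ _ hp hpM ℓ hℓp
  haveI : NeZero (ℓ : ℕ) := ⟨ℓ.2.ne_zero⟩
  exact normBC M' p ℓ hp (not_dvd_mul_prime hp hpM ℓ.2 hℓp)

/-- **`DegeneracyOK` for `π₁ = (α_p)_*`** (total family), unconditional. -/
theorem degeneracyOK_degenOne (M' p : ℕ) [NeZero M'] [NeZero (M' * p)] :
    Fermat.Agent.T1B.Local66.Assembly.DegeneracyOK Fermat.Agent.T1B.Degen21.UFam.uTwo
      (Fermat.Agent.T1B.Degen21.Occ.degenOne M' p) :=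
  fun good a C hgood x hx =>
    Fermat.Agent.T1B.Degen21.Occ.degenOne_mem_occSub normBCRange M' p p good a C hgood x hx

/-- **`DegeneracyOK` for `π₂ = (β_p)_*`** (total family), unconditional. -/
theorem degeneracyOK_degenTwo (M' p : ℕ) [NeZero M'] [NeZero (M' * p)] :
    Fermat.Agent.T1B.Local66.Assembly.DegeneracyOK Fermat.Agent.T1B.Degen21.UFam.uTwo
      (Fermat.Agent.T1B.Degen21.Occ.degenTwo M' p) :=
  fun good a C hgood x hx =>
    Fermat.Agent.T1B.Degen21.Occ.degenTwo_mem_occSub normBCRange M' p p good a C hgood x hx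

end Fermat.Agent.T1B.Degen20.Final
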